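/-
P-CFT row 836 (helper4): H3-FIN, `H3FinToLvlStatement : H3TorsionStatement → H3GmStatement`.

Every level 3-cocycle of `G_E` with values in `ℚ̄ˣ` and trivial `p`-th power is the coboundary of
a level 2-cochain, given that the `p`-torsion of `H³(Gal(F/E), Fˣ)` vanishes for every finite
Galois extension `F / E`.

* `h3_lvl3Finite` : a level 3-cochain is inflated from a finite Galois extension `F / E`;
* `h3_d2_apply`, `h3_d3_apply` : explicit formulas for the inhomogeneous differentials `d²`, `d³`;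
* `h3FinToLvl` : the statement.
-/
import Fermat.Agent.H78.CFT.LocalInvRows
import Fermat.Agent.H75.Inf2Tower
import Fermat.Agent.H19.Cft.HomologyApi

set_option autoImplicit false
set_option synthInstance.maxHeartbeats 400000

universe u

namespace Fermat.Agent.H4.CFT

open Fermat.Agent.H13.Cft Fermat.Agent.H78.CFT groupCohomology Fermat.Agent.H75.Inf2
  Fermat.Agent.H19

attribute [local instance] Fermat.Agent.H75.Inf2.isGalois_rat_Qb

/-- A function on `G × G × G` right-invariant under `N × N × N`, `N` of finite index, has finite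
range. -/
lemma h3_finite_range {G : Type} [Group G] {M : Type} (N : Subgroup G) [N.FiniteIndex]
    (c : G × G × G → M)
    (hinv : ∀ g h j, ∀ n ∈ N, ∀ m ∈ N, ∀ l ∈ N, c (g * n, h * m, j * l) = c (g, h, j)) :
    (Set.range c).Finite := by
  have : Finite (G ⧸ N) := Subgroup.finite_quotient_of_finiteIndex
  have hsub : Set.range c ⊆
      Set.range (fun q : (G ⧸ N) × (G ⧸ N) × (G ⧸ N) =>
        c (Quotient.out q.1, Quotient.out q.2.1, Quotient.out q.2.2)) := by
    rintro _ ⟨⟨g, h, j⟩, rfl⟩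
    refine ⟨(QuotientGroup.mk g, QuotientGroup.mk h, QuotientGroup.mk j), ?_⟩
    have hg : g⁻¹ * Quotient.out (QuotientGroup.mk g : G ⧸ N) ∈ N := by
      rw [← QuotientGroup.eq]
      exact (QuotientGroup.out_eq' _).symm
    have hh : h⁻¹ * Quotient.out (QuotientGroup.mk h : G ⧸ N) ∈ N := by
      rw [← QuotientGroup.eq]
      exact (QuotientGroup.out_eq' _).symm
    have hj : j⁻¹ * Quotient.out (QuotientGroup.mk j : G ⧸ N) ∈ N := by
      rw [← QuotientGroup.eq]
      exact (QuotientGroup.out_eq' _).symm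
    have := hinv g h j _ hg _ hh _ hj
    simp only [mul_inv_cancel_left] at this
    exact this
  exact (Set.finite_range _).subset hsub

set_option maxHeartbeats 1000000 in
/-- Every level 3-cochain of `G_E` with values in `ℚ̄ˣ` is inflated from a finite Galois
extension `F / E`. -/
theorem h3_lvl3Finite (E : IntermediateField ℚ Qb)
    (c : E.fixingSubgroup × E.fixingSubgroup × E.fixingSubgroup → Qbˣ)
    (hlvl : IsLvlFun₃ (lvlE E) c) :
    ∃ (F : IntermediateField E Qb) (_ : FiniteDimensional E F) (_ : IsGalois E F)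
      (c' : (F ≃ₐ[E] F) × (F ≃ₐ[E] F) × (F ≃ₐ[E] F) → Fˣ),
      ∀ g h j : E.fixingSubgroup,
        Units.map (algebraMap F Qb : F →* Qb) (c' (resEF E F g, resEF E F h, resEF E F j))
          = c (g, h, j) := by
  classical
  obtain ⟨N, ⟨hNn, hNf, F0, hF0, hF0N⟩, hinv⟩ := hlvl
  have hfin : (Set.range c).Finite := h3_finite_range N c hinv
  -- a finite generating set
  let b := Module.finBasis ℚ F0
  let T : Set Qb := (fun u : Qbˣ => (u : Qb)) '' Set.range c ∪ Set.range (fun i => (b i : Qb))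
  have hT : T.Finite := (hfin.image _).union (Set.finite_range _)
  have : Finite T := hT
  let K0 : IntermediateField E Qb := IntermediateField.adjoin E T
  have hK0 : FiniteDimensional E K0 :=
    IntermediateField.finiteDimensional_adjoin (fun x _ => Algebra.IsIntegral.isIntegral x)
  let F : IntermediateField E Qb := IntermediateField.normalClosure E K0 Qb
  have hFn : Normal E F := inferInstance
  have hFf : FiniteDimensional E F := inferInstance
  have hFg : IsGalois E F := ⟨⟩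
  have hTF : ∀ x ∈ T, x ∈ F := fun x hx =>
    (IntermediateField.le_normalClosure K0) (IntermediateField.subset_adjoin E T hx)
  -- the kernel of restriction is contained in `N`
  have hker : ∀ g : E.fixingSubgroup, resEF E F g = 1 → g ∈ N := by
    intro g hg
    apply hF0N
    rw [Subgroup.mem_comap, IntermediateField.mem_fixingSubgroup_iff]
    intro x hx
    have hb : ∀ i, (g : Qb ≃ₐ[ℚ] Qb) (b i : Qb) = b i := by
      intro i
      have := (resEF_eq_one_iff E F g).1 hg ⟨(b i : Qb), hTF _ (Or.inr ⟨i, rfl⟩)⟩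
      exact this
    have hx' : (⟨x, hx⟩ : F0) = ∑ i, (b.repr ⟨x, hx⟩ i) • b i := (b.sum_repr _).symm
    have hx'' : x = ∑ i, (b.repr ⟨x, hx⟩ i) • (b i : Qb) := by
      have := congrArg (fun y : F0 => (y : Qb)) hx'
      simp only [IntermediateField.coe_sum, IntermediateField.coe_smul] at this
      exact this
    rw [hx'']
    simp only [Subgroup.coe_subtype, map_sum, map_rat_smul, hb]
  -- lifts
  have hsurj := resEF_surjective E F
  let lift : (F ≃ₐ[E] F) → E.fixingSubgroup := Function.surjInv hsurj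
  have hlift : ∀ σ, resEF E F (lift σ) = σ := Function.surjInv_eq hsurj
  have hval : ∀ p : E.fixingSubgroup × E.fixingSubgroup × E.fixingSubgroup,
      ((c p : Qbˣ) : Qb) ∈ F :=
    fun p => hTF _ (Or.inl ⟨c p, ⟨p, rfl⟩, rfl⟩)
  let c' : (F ≃ₐ[E] F) × (F ≃ₐ[E] F) × (F ≃ₐ[E] F) → Fˣ := fun p =>
    unitOfMem F (c (lift p.1, lift p.2.1, lift p.2.2)) (hval _)
  have hcongr : ∀ g g' h h' j j' : E.fixingSubgroup, resEF E F g = resEF E F g' →
      resEF E F h = resEF E F h' → resEF E F j = resEF E F j' →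
      c (g', h', j') = c (g, h, j) := by
    intro g g' h h' j j' hg hh hj
    have h1 : g⁻¹ * g' ∈ N := hker _ (by rw [map_mul, map_inv, hg, inv_mul_cancel])
    have h2 : h⁻¹ * h' ∈ N := hker _ (by rw [map_mul, map_inv, hh, inv_mul_cancel])
    have h3 : j⁻¹ * j' ∈ N := hker _ (by rw [map_mul, map_inv, hj, inv_mul_cancel])
    have := hinv g h j _ h1 _ h2 _ h3
    simpa using this
  refine ⟨F, hFf, hFg, c', fun g h j => ?_⟩
  simp only [c', map_unitOfMem]
  exact hcongr g _ h _ j _ (hlift _).symm (hlift _).symm (hlift _).symm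

section formulas

variable {k G : Type u} [CommRing k] [Group G] (A : Rep.{u} k G)

/-- The inhomogeneous differential `d² : C² → C³`, explicitly. -/
lemma h3_d2_apply (b : (Fin 2 → G) → A) (g : Fin 3 → G) :
    (inhomogeneousCochains.d A 2).hom b g
      = A.ρ (g 0) (b ![g 1, g 2]) - b ![g 0 * g 1, g 2] + b ![g 0, g 1 * g 2]
        - b ![g 0, g 1] := by
  rw [inhomogeneousCochains.d_hom_apply, Fin.sum_univ_three]
  have e0 : (fun i : Fin 2 => g i.succ) = ![g 1, g 2] := by
    funext i; fin_cases i <;> rfl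
  have e1 : Fin.contractNth (0 : Fin 3) (· * ·) g = ![g 0 * g 1, g 2] := by
    funext i; fin_cases i <;> rfl
  have e2 : Fin.contractNth (1 : Fin 3) (· * ·) g = ![g 0, g 1 * g 2] := by
    funext i; fin_cases i <;> rfl
  have e3 : Fin.contractNth (2 : Fin 3) (· * ·) g = ![g 0, g 1] := by
    funext i; fin_cases i <;> rfl
  rw [e0, e1, e2, e3]
  simp only [Fin.val_zero, zero_add, pow_one, neg_smul, one_smul, Fin.val_one, Fin.val_two,
    Nat.reduceAdd, even_two, Even.neg_pow, one_pow, Odd.neg_pow (by decide : Odd 3)]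
  abel

/-- The inhomogeneous differential `d³ : C³ → C⁴`, explicitly. -/
lemma h3_d3_apply (f : (Fin 3 → G) → A) (g : Fin 4 → G) :
    (inhomogeneousCochains.d A 3).hom f g
      = A.ρ (g 0) (f ![g 1, g 2, g 3]) - f ![g 0 * g 1, g 2, g 3] + f ![g 0, g 1 * g 2, g 3]
        - f ![g 0, g 1, g 2 * g 3] + f ![g 0, g 1, g 2] := by
  rw [inhomogeneousCochains.d_hom_apply, Fin.sum_univ_four]
  have e0 : (fun i : Fin 3 => g i.succ) = ![g 1, g 2, g 3] := by
    funext i; fin_cases i <;> rfl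
  have e1 : Fin.contractNth (0 : Fin 4) (· * ·) g = ![g 0 * g 1, g 2, g 3] := by
    funext i; fin_cases i <;> rfl
  have e2 : Fin.contractNth (1 : Fin 4) (· * ·) g = ![g 0, g 1 * g 2, g 3] := by
    funext i; fin_cases i <;> rfl
  have e3 : Fin.contractNth (2 : Fin 4) (· * ·) g = ![g 0, g 1, g 2 * g 3] := by
    funext i; fin_cases i <;> rfl
  have e4 : Fin.contractNth (3 : Fin 4) (· * ·) g = ![g 0, g 1, g 2] := by
    funext i; fin_cases i <;> rfl
  rw [e0, e1, e2, e3, e4]
  have p1 : ((-1 : k)) ^ (((0 : Fin 4) : ℕ) + 1) = -1 := by simp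
  have p2 : ((-1 : k)) ^ (((1 : Fin 4) : ℕ) + 1) = 1 := by simp
  have p3 : ((-1 : k)) ^ (((2 : Fin 4) : ℕ) + 1) = -1 := by
    simp [Odd.neg_pow (by decide : Odd 3)]
  have p4 : ((-1 : k)) ^ (((3 : Fin 4) : ℕ) + 1) = 1 := by
    simp [Even.neg_pow (by decide : Even 4)]
  rw [p1, p2, p3, p4]
  simp only [neg_smul, one_smul]
  abel

end formulas

section finite

variable (E : IntermediateField ℚ Qb) (F : IntermediateField E Qb)

set_option maxHeartbeats 1000000 in
/-- The vanishing of the `p`-torsion of `H³(Gal(F/E), Fˣ)` in cochain language. -/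
theorem h3_finite_coboundary (p : ℕ)
    (hT : ∀ x : groupCohomology (Rep.ofAlgebraAutOnUnits E F) 3, p • x = 0 → x = 0)
    (c' : (F ≃ₐ[E] F) × (F ≃ₐ[E] F) × (F ≃ₐ[E] F) → Fˣ)
    (hcoc : ∀ σ τ υ ω : F ≃ₐ[E] F,
      σ • c' (τ, υ, ω) * c' (σ, τ * υ, ω) * c' (σ, τ, υ) = c' (σ * τ, υ, ω) * c' (σ, τ, υ * ω))
    (hpow : ∀ x, c' x ^ p = 1) :
    ∃ b' : (F ≃ₐ[E] F) × (F ≃ₐ[E] F) → Fˣ, ∀ σ τ υ : F ≃ₐ[E] F,
      σ • b' (τ, υ) * b' (σ, τ * υ) / (b' (σ * τ, υ) * b' (σ, τ)) = c' (σ, τ, υ) := by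
  classical
  let A : Rep ℤ (F ≃ₐ[E] F) := Rep.ofAlgebraAutOnUnits E F
  let f : (Fin 3 → (F ≃ₐ[E] F)) → A := fun v => Additive.ofMul (c' (v 0, v 1, v 2))
  have hf0 : (inhomogeneousCochains.d A 3).hom f = 0 := by
    funext g
    rw [h3_d3_apply]
    have h := congrArg Additive.ofMul (hcoc (g 0) (g 1) (g 2) (g 3))
    simp only [ofMul_mul] at h
    show Additive.ofMul (g 0 • c' (g 1, g 2, g 3)) - Additive.ofMul (c' (g 0 * g 1, g 2, g 3))
      + Additive.ofMul (c' (g 0, g 1 * g 2, g 3)) - Additive.ofMul (c' (g 0, g 1, g 2 * g 3))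
      + Additive.ofMul (c' (g 0, g 1, g 2)) = 0
    linear_combination (norm := abel) h
  have hd : ∀ y : (Fin 3 → (F ≃ₐ[E] F)) → A,
      ((inhomogeneousCochains A).d 3 (3 + 1)).hom y = (inhomogeneousCochains.d A 3).hom y := by
    intro y
    simp [CochainComplex.of.d]
  have hd2 : ∀ y : (Fin 2 → (F ≃ₐ[E] F)) → A,
      ((inhomogeneousCochains A).d 2 (2 + 1)).hom y = (inhomogeneousCochains.d A 2).hom y := by
    intro y
    simp [CochainComplex.of.d]
  have hf : ((inhomogeneousCochains A).d 3 (3 + 1)).hom f = 0 := (hd f).trans hf0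
  -- the class of `f` is killed by `p`
  have hpf : ((p : ℤ) • f : (Fin 3 → (F ≃ₐ[E] F)) → A) = 0 := by
    funext v
    show (p : ℤ) • Additive.ofMul (c' (v 0, v 1, v 2)) = 0
    rw [natCast_zsmul, ← ofMul_pow, hpow]
    rfl
  have hpf' : ((inhomogeneousCochains A).d 3 (3 + 1)).hom ((p : ℤ) • f) = 0 := by
    rw [map_smul, hf, smul_zero]
  have h0 : ((inhomogeneousCochains A).d 3 (3 + 1)).hom
      (0 : (Fin 3 → (F ≃ₐ[E] F)) → A) = 0 := map_zero _
  have hx : p • (hMk (inhomogeneousCochains A) 3 f hf) = 0 :=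
    (Nat.cast_smul_eq_nsmul ℤ p _).symm.trans
      ((hapi_hMk_smul (inhomogeneousCochains A) 3 (p : ℤ) f hf hpf').symm.trans
        ((hapi_hMk_congr (inhomogeneousCochains A) 3 hpf hpf' h0).trans
          (hapi_hMk_zero (inhomogeneousCochains A) 3 h0)))
  have hx0 : hMk (inhomogeneousCochains A) 3 f hf = 0 := hT _ hx
  obtain ⟨y, hy⟩ := (hapi_hMk_succ_eq_zero_iff (inhomogeneousCochains A) 2 f hf).1 hx0
  have hy' : (inhomogeneousCochains.d A 2).hom y = f := (hd2 y).symm.trans hy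
  let y' : (Fin 2 → (F ≃ₐ[E] F)) → Additive Fˣ := y
  refine ⟨fun x => Additive.toMul (y' ![x.1, x.2]), fun σ τ υ => ?_⟩
  have h := congrFun hy' ![σ, τ, υ]
  rw [h3_d2_apply] at h
  have h' : Additive.ofMul (σ • Additive.toMul (y' ![τ, υ])) - y' ![σ * τ, υ] + y' ![σ, τ * υ]
      - y' ![σ, τ] = Additive.ofMul (c' (σ, τ, υ)) := h
  apply Additive.ofMul.injective
  rw [← h']
  simp only [ofMul_div, ofMul_mul, ofMul_toMul]
  abel

end finite

set_option maxHeartbeats 1000000 in
/-- **[H3-FIN]** from finite level to level cochains in degree 3. -/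
theorem h3FinToLvl : H3FinToLvlStatement := by
  intro hT p _ q _ E hE c hlvl hcoc hpow
  classical
  obtain ⟨F, hFf, hFg, c', hinfl⟩ := h3_lvl3Finite E c hlvl
  have hFn : Normal E F := inferInstance
  have hsurj := resEF_surjective E F
  have hinj : Function.Injective (Units.map (algebraMap F Qb : F →* Qb)) :=
    Units.map_injective (algebraMap F Qb).injective
  have hact : ∀ (g : E.fixingSubgroup) (u : Fˣ),
      Units.map (algebraMap F Qb : F →* Qb) (resEF E F g • u) =
        actU (g : Qb ≃ₐ[ℚ] Qb) (Units.map (algebraMap F Qb : F →* Qb) u) := by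
    intro g u
    apply Units.ext
    show ((resEF E F g (u : F) : F) : Qb) = _
    rw [resEF_apply]
    rfl
  have hcoc' : ∀ σ τ υ ω : F ≃ₐ[E] F,
      σ • c' (τ, υ, ω) * c' (σ, τ * υ, ω) * c' (σ, τ, υ)
        = c' (σ * τ, υ, ω) * c' (σ, τ, υ * ω) := by
    intro σ τ υ ω
    obtain ⟨g, rfl⟩ := hsurj σ
    obtain ⟨h, rfl⟩ := hsurj τ
    obtain ⟨j, rfl⟩ := hsurj υ
    obtain ⟨l, rfl⟩ := hsurj ω
    apply hinj
    rw [map_mul, map_mul, map_mul, hact, ← map_mul (resEF E F), ← map_mul (resEF E F),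
      ← map_mul (resEF E F), hinfl, hinfl, hinfl, hinfl, hinfl]
    exact hcoc g h j l
  have hpow' : ∀ x, c' x ^ p = 1 := by
    rintro ⟨σ, τ, υ⟩
    obtain ⟨g, rfl⟩ := hsurj σ
    obtain ⟨h, rfl⟩ := hsurj τ
    obtain ⟨j, rfl⟩ := hsurj υ
    apply hinj
    rw [map_pow, hinfl, map_one]
    exact hpow _
  obtain ⟨b', hb'⟩ := h3_finite_coboundary E F p (hT p q E hE F) c' hcoc' hpow'
  refine ⟨inflE E F b', ⟨(resEF E F).ker, ker_resEF_mem_lvl E F, ?_⟩, ?_⟩
  · intro g h n hn m hm
    simp only [inflE, map_mul, MonoidHom.mem_ker.1 hn, MonoidHom.mem_ker.1 hm, mul_one]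
  · rintro ⟨g, h, j⟩
    rw [← hinfl g h j, ← hb' (resEF E F g) (resEF E F h) (resEF E F j)]
    simp only [mulD₂E, inflE, map_mul, map_div, hact]

end Fermat.Agent.H4.CFT
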