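import Mathlib
import Fermat.Agent.H25.CFT.Interfaces

/-!
# P-CFT / 2I-TAME (row 594, helper4): Newton iteration for `X ^ p - y` at a prime not above `p`

`tameNewton : Fermat.Agent.H25.CFT.TameNewtonStatement`.

At a prime `v` of a number field `K` with `v(p) = 1`, a `v`-unit `y` which is a `p`-th power
residue at `v` lies in `locPow K p v`, i.e. it is approximated to every order by `p`-th powers.
-/

set_option autoImplicit false

namespace Fermat.Agent.H4.CFT

open NumberField IsDedekindDomain Fermat.Agent.H43.Cft Fermat.Agent.H25.CFT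

section Newton

variable {K : Type*} [Field K] {Γ₀ : Type*} [LinearOrderedCommGroupWithZero Γ₀]
  (V : Valuation K Γ₀)

/-- The binomial expansion to second order, with integral remainder. -/
theorem newton_expansion {z t : K} (hz : V z ≤ 1) (ht : V t ≤ 1) (p : ℕ) :
    ∃ c : K, V c ≤ 1 ∧ (z + t) ^ p - z ^ (p - 1) * t * p - z ^ p = t ^ 2 * c := by
  obtain ⟨c, hc⟩ := sq_dvd_add_pow_sub_sub (⟨t, ht⟩ : V.integer) (⟨z, hz⟩ : V.integer) p
  refine ⟨(c : K), c.2, ?_⟩
  have := congrArg (fun x : V.integer => (x : K)) hc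
  simpa using this

/-- One Newton step for `X ^ p - y`: the error is squared. -/
theorem newton_step {p : ℕ} (hVp : V (p : K) = 1) {y z : K} (hz : V z = 1)
    (hyz : V (y - z ^ p) < 1) :
    ∃ z' : K, V z' = 1 ∧ V (y - z' ^ p) ≤ V (y - z ^ p) ^ 2 := by
  set t : K := (y - z ^ p) / ((p : K) * z ^ (p - 1)) with ht
  have hden : V ((p : K) * z ^ (p - 1)) = 1 := by
    rw [map_mul, hVp, map_pow, hz, one_pow, mul_one]
  have hden0 : (p : K) * z ^ (p - 1) ≠ 0 := by
    intro h
    rw [h, map_zero] at hden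
    exact zero_ne_one hden
  have hVt : V t = V (y - z ^ p) := by rw [ht, map_div₀, hden, div_one]
  have htmul : t * ((p : K) * z ^ (p - 1)) = y - z ^ p := by
    rw [ht, div_mul_cancel₀ _ hden0]
  refine ⟨z + t, ?_, ?_⟩
  · have h := Valuation.map_add_eq_of_lt_left V (x := z) (y := t) (by rw [hz, hVt]; exact hyz)
    rw [h, hz]
  · obtain ⟨c, hc1, hc⟩ := newton_expansion V hz.le (hVt.le.trans hyz.le) p
    have e : y - (z + t) ^ p = -(t ^ 2 * c) := by
      rw [← hc]
      linear_combination -htmul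
    rw [e, Valuation.map_neg, map_mul, map_pow, hVt]
    exact mul_le_of_le_one_right' hc1

end Newton

/-- **2I-TAME.**  At a prime `v` not above `p`, a `v`-unit which is a `p`-th power residue mod `v`
is in `locPow K p v`. -/
theorem tameNewton.{u} : TameNewtonStatement.{u} := by
  intro K _ _ p hp v hvp y hy hres
  set V := v.valuation K with hV
  -- the approximating sequence
  have key : ∀ m : ℕ, ∃ z : K, V z = 1 ∧ V ((y : K) - z ^ p) ≤ WithZero.exp (-((m : ℤ) + 1)) := by
    intro m
    induction m with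
    | zero =>
      obtain ⟨z, hz⟩ := hres
      refine ⟨z, ?_, ?_⟩
      · have h1 : V (z ^ p) = 1 := by
          have h2 : z ^ p = (y : K) - ((y : K) - z ^ p) := by ring
          rw [h2, Valuation.map_sub_eq_of_lt_left V (by rw [hy]; exact hz), hy]
        rw [map_pow] at h1
        exact (pow_eq_one_iff.1 h1).resolve_right hp.ne_zero
      · have h3 : V ((y : K) - z ^ p) < WithZero.exp (-1 : ℤ) * WithZero.exp (1 : ℤ) := by
          rw [← WithZero.exp_add]
          simpa using hz
        have := (WithZero.lt_mul_exp_iff_le (WithZero.exp_ne_zero)).1 h3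
        simpa using this
    | succ m ih =>
      obtain ⟨z, hz1, hz⟩ := ih
      have hlt : WithZero.exp (-((m : ℤ) + 1)) < (1 : WithZero (Multiplicative ℤ)) := by
        rw [← WithZero.exp_zero, WithZero.exp_lt_exp]; omega
      obtain ⟨z', hz'1, hz'⟩ := newton_step V hvp hz1 (lt_of_le_of_lt hz hlt)
      refine ⟨z', hz'1, hz'.trans ?_⟩
      calc V ((y : K) - z ^ p) ^ 2 ≤ WithZero.exp (-((m : ℤ) + 1)) ^ 2 :=
            pow_le_pow_left₀ zero_le hz 2
        _ = WithZero.exp (-((m : ℤ) + 1) + -((m : ℤ) + 1)) := by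
            rw [WithZero.exp_add, sq]
        _ ≤ WithZero.exp (-(((m + 1 : ℕ) : ℤ) + 1)) := by
            rw [WithZero.exp_le_exp]
            push_cast
            omega
  -- conclusion
  show y ∈ ⨅ m : ℕ, powSubgroup K p ⊔ principalUnits K v m
  rw [Subgroup.mem_iInf]
  intro m
  obtain ⟨z, hz1, hz⟩ := key m
  have hz0 : z ≠ 0 := by
    intro h
    rw [h, map_zero] at hz1
    exact zero_ne_one hz1
  set zu : Kˣ := Units.mk0 z hz0 with hzu
  have ha : zu ^ p ∈ powSubgroup K p := ⟨zu, rfl⟩
  have hb : (zu ^ p)⁻¹ * y ∈ principalUnits K v m := by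
    show v.valuation K ((((zu ^ p)⁻¹ * y : Kˣ) : K) - 1) ≤ WithZero.exp (-((m : ℤ) + 1))
    have e : (((zu ^ p)⁻¹ * y : Kˣ) : K) - 1 = ((y : K) - z ^ p) / z ^ p := by
      have hzp : z ^ p ≠ 0 := pow_ne_zero _ hz0
      rw [Units.val_mul, Units.val_inv_eq_inv_val, Units.val_pow_eq_pow_val, hzu, Units.val_mk0]
      field_simp
    rw [e, map_div₀, map_pow]
    have : v.valuation K z = 1 := hz1
    rw [this, one_pow, div_one]
    exact hz
  have := Subgroup.mul_mem_sup ha hb
  rwa [mul_inv_cancel_left] at this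

end Fermat.Agent.H4.CFT
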